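import Fermat.Agent.S18.H725.Value

/-!
# S15 / COMPAT (helper722): abstract place reductions and the value lemma

`RedCore K F k Fk` is the minimal abstract form of the Prelude's `IsPlaceReductionAlong`:
a valuation ring `A` of the constant field `K` with a residue map `res : A → k`, a subring `O ⊆ F`
of "integral functions" with a reduction map `ρ : O → Fk`, and a map `r` on places such that
`r_* div(y) = div(ρ y)` for every `y ∈ O` with `ρ y ≠ 0`.

Main results (all for a `RedCore` and `[HasPrincipalDivisors K F]`):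
* `RedCore.ord_ρ_nonneg`, `ord_ρ_pos`, `exists_pos_of_ord_ρ_pos`, `exists_neg_of_ord_ρ_neg`;
* `RedCore.val_mem` : values of integral functions without poles over `Q` are integral;
* `RedCore.hasVal_ρ` : **value lemma**, `y(P) = c` implies `(ρ y)(r P) = res c`.
-/

set_option autoImplicit false

noncomputable section

open AlgebraicCurve

namespace Fermat.Agent.S15.H722

open Fermat.Agent.Lib.RR Fermat.Agent.S18.H725

variable {K F k Fk : Type*} [Field K] [Field F] [Algebra K F] [Field k] [Field Fk] [Algebra k Fk]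

/-- `f` is regular at `P` with value `c` (`f = c`, or `f - c` vanishes at `P`). -/
def HasVal (P : Place K F) (f : F) (c : K) : Prop :=
  f - algebraMap K F c = 0 ∨ 0 < P.ord (f - algebraMap K F c)

theorem HasVal.ord_nonneg {P : Place K F} {f : F} {c : K} (h : HasVal P f c) : 0 ≤ P.ord f := by
  rcases h with h | h
  · rw [sub_eq_zero] at h
    rw [h, ord_algebraMap]
  · have h1 : 0 ≤ P.ord (f - algebraMap K F c) := h.le
    have h2 : 0 ≤ P.ord (algebraMap K F c) := by rw [ord_algebraMap]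
    have := add_mem (mem_of_ord_nonneg P h1) (mem_of_ord_nonneg P h2)
    rw [sub_add_cancel] at this
    exact ord_nonneg_of_mem P this

/-- the value at a place is unique -/
theorem HasVal.unique {P : Place K F} {f : F} {c c' : K} (h : HasVal P f c) (h' : HasVal P f c') :
    c = c' := by
  by_contra hne
  have hd : c' - c ≠ 0 := sub_ne_zero.mpr (Ne.symm hne)
  have hdF : algebraMap K F (c' - c) ≠ 0 := (map_ne_zero (algebraMap K F)).mpr hd
  have key : (f - algebraMap K F c) + -(f - algebraMap K F c') = algebraMap K F (c' - c) := by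
    rw [map_sub]; ring
  have hord : P.ord ((f - algebraMap K F c) + -(f - algebraMap K F c')) = 0 := by
    rw [key, ord_algebraMap]
  rcases h with h | h
  · rw [h, zero_add, ord_neg] at hord
    rcases h' with h' | h'
    · rw [h, h', neg_zero, add_zero] at key
      exact hdF key.symm
    · omega
  · rcases h' with h' | h'
    · rw [h', neg_zero, add_zero] at hord
      omega
    · have h1 : f - algebraMap K F c ≠ 0 := ne_zero_of_ord_ne_zero P (ne_of_gt h)
      have h2 : -(f - algebraMap K F c') ≠ 0 :=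
        neg_ne_zero.mpr (ne_zero_of_ord_ne_zero P (ne_of_gt h'))
      have h3 : (f - algebraMap K F c) + -(f - algebraMap K F c') ≠ 0 := by rw [key]; exact hdF
      have := ord_add P h1 h2 h3
      rw [ord_neg, hord] at this
      rcases min_le_iff.mp this with h4 | h4 <;> omega

/-- at a place of degree one every regular function has a value -/
theorem exists_hasVal (P : Place K F) (hP : P.deg = 1) {f : F} (hf : 0 ≤ P.ord f) :
    ∃ c : K, HasVal P f c :=
  exists_const_sub P hP hf

theorem hasVal_zero_of_ord_pos {P : Place K F} {f : F} (h : 0 < P.ord f) : HasVal P f 0 :=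
  Or.inr (by rwa [map_zero, sub_zero])

theorem HasVal.ord_pos_of_zero {P : Place K F} {f : F} (h : HasVal P f 0) (hf : f ≠ 0) :
    0 < P.ord f := by
  rcases h with h | h
  · rw [map_zero, sub_zero] at h; exact absurd h hf
  · rwa [map_zero, sub_zero] at h

/-- An abstract place reduction. -/
structure RedCore (K F k Fk : Type*) [Field K] [Field F] [Algebra K F] [Field k] [Field Fk]
    [Algebra k Fk] where
  /-- the valuation ring of the constant field -/
  A : ValuationSubring K
  /-- the residue map on constants -/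
  res : A →+* k
  /-- non-units reduce to zero -/
  res_eq_zero : ∀ a : A, ¬ IsUnit a → res a = 0
  /-- the ring of integral functions -/
  O : Subring F
  /-- reduction of integral functions -/
  ρ : O →+* Fk
  const_mem : ∀ a : A, algebraMap K F (a : K) ∈ O
  ρ_const : ∀ a : A, ρ ⟨algebraMap K F (a : K), const_mem a⟩ = algebraMap k Fk (res a)
  /-- the specialisation map on places -/
  r : Place K F → Place k Fk
  /-- compatibility of divisors with reduction -/
  red : ∀ y : O, ρ y ≠ 0 → ∀ D : Divisor K F, (∀ P, D P = P.ord (y : F)) →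
    ∀ Q, Finsupp.mapDomain r D Q = Q.ord (ρ y)

namespace RedCore

variable (Φ : RedCore K F k Fk)

/-- the constant function of an integral constant, as an integral function -/
def const (a : Φ.A) : Φ.O := ⟨algebraMap K F (a : K), Φ.const_mem a⟩

@[simp] theorem coe_const (a : Φ.A) : ((Φ.const a : Φ.O) : F) = algebraMap K F (a : K) := rfl

@[simp] theorem ρ_const' (a : Φ.A) : Φ.ρ (Φ.const a) = algebraMap k Fk (Φ.res a) := Φ.ρ_const a

theorem coe_ne_zero {y : Φ.O} (hy : Φ.ρ y ≠ 0) : (y : F) ≠ 0 := by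
  intro h
  apply hy
  have : y = 0 := Subtype.ext h
  rw [this, map_zero]

section Red

variable [HasPrincipalDivisors K F]

theorem exists_div {f : F} (hf : f ≠ 0) :
    ∃ D : Divisor K F, (∀ P, D P = P.ord f) ∧ Divisor.degree D = 0 :=
  HasPrincipalDivisors.exists_divisor (K := K) f hf

theorem ord_ρ_nonneg {y : Φ.O} (hy : Φ.ρ y ≠ 0) {Q : Place k Fk}
    (h : ∀ P, Φ.r P = Q → 0 ≤ P.ord (y : F)) : 0 ≤ Q.ord (Φ.ρ y) := by
  obtain ⟨D, hD, -⟩ := exists_div (K := K) (Φ.coe_ne_zero hy)
  rw [← Φ.red y hy D hD Q]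
  exact mapDomain_nonneg Φ.r D fun P hP => by rw [hD]; exact h P hP

theorem ord_ρ_pos {y : Φ.O} (hy : Φ.ρ y ≠ 0) {Q : Place k Fk}
    (h : ∀ P, Φ.r P = Q → 0 ≤ P.ord (y : F)) {P₀ : Place K F} (hP₀ : Φ.r P₀ = Q)
    (h₀ : 0 < P₀.ord (y : F)) : 0 < Q.ord (Φ.ρ y) := by
  obtain ⟨D, hD, -⟩ := exists_div (K := K) (Φ.coe_ne_zero hy)
  rw [← Φ.red y hy D hD Q]
  exact mapDomain_pos Φ.r D (fun P hP => by rw [hD]; exact h P hP) hP₀ (by rw [hD]; exact h₀)

/-- if `ρ y` has order `≤ 0` at `Q` and `y` vanishes somewhere over `Q`, then `y` has a pole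
over `Q` -/
theorem exists_neg_of_ord_ρ_nonpos {y : Φ.O} (hy : Φ.ρ y ≠ 0) {Q : Place k Fk}
    (hQ : Q.ord (Φ.ρ y) ≤ 0) {P₀ : Place K F} (hP₀ : Φ.r P₀ = Q) (h₀ : 0 < P₀.ord (y : F)) :
    ∃ P, Φ.r P = Q ∧ P.ord (y : F) < 0 := by
  by_contra hcon
  push Not at hcon
  have := Φ.ord_ρ_pos hy hcon hP₀ h₀
  omega

/-- if `ρ y` vanishes at `Q`, then `y` vanishes somewhere over `Q` -/
theorem exists_pos_of_ord_ρ_pos {y : Φ.O} (hy : Φ.ρ y ≠ 0) {Q : Place k Fk}
    (hQ : 0 < Q.ord (Φ.ρ y)) : ∃ P, Φ.r P = Q ∧ 0 < P.ord (y : F) := by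
  classical
  obtain ⟨D, hD, -⟩ := exists_div (K := K) (Φ.coe_ne_zero hy)
  have hred := Φ.red y hy D hD Q
  by_contra hcon
  push Not at hcon
  have hle : Finsupp.mapDomain Φ.r D Q ≤ 0 := by
    rw [mapDomain_apply_eq_sum]
    refine Finset.sum_nonpos fun P _ => ?_
    split_ifs with h
    · rw [hD]; exact hcon P h
    · exact le_refl _
  omega

/-- **Integrality of values.** If `y ∈ O` has no pole over `Q` and takes the value `c` at a place
`P` over `Q`, then `c` is integral. -/
theorem val_mem {y : Φ.O} {Q : Place k Fk} {P : Place K F} (hP : Φ.r P = Q)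
    (hreg : ∀ P', Φ.r P' = Q → 0 ≤ P'.ord (y : F)) {c : K} (hc : HasVal P (y : F) c) :
    c ∈ Φ.A := by
  by_contra hmem
  have hc0 : c ≠ 0 := by
    rintro rfl
    exact hmem (zero_mem _)
  have hinv : c⁻¹ ∈ Φ.A := (Φ.A.mem_or_inv_mem c).resolve_left hmem
  have hnu : ¬ IsUnit (⟨c⁻¹, hinv⟩ : Φ.A) := by
    intro hu
    apply hmem
    obtain ⟨u, hu⟩ := hu
    have h1 : ((u⁻¹ : Φ.Aˣ) : Φ.A) * ⟨c⁻¹, hinv⟩ = 1 := by rw [← hu]; exact Units.inv_mul u
    have h2 : (((u⁻¹ : Φ.Aˣ) : Φ.A) : K) * c⁻¹ = 1 := by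
      have := congrArg Subtype.val h1
      simpa using this
    have h3 : (((u⁻¹ : Φ.Aˣ) : Φ.A) : K) = c := by
      field_simp at h2
      exact h2
    rw [← h3]
    exact Subtype.mem _
  set ci : Φ.O := Φ.const ⟨c⁻¹, hinv⟩ with hci
  set z : Φ.O := 1 - ci * y with hz
  have hzcoe : (z : F) = 1 - algebraMap K F c⁻¹ * (y : F) := rfl
  have hρz : Φ.ρ z = 1 := by
    rw [hz, map_sub, map_one, map_mul, hci, Φ.ρ_const', Φ.res_eq_zero _ hnu, map_zero, zero_mul,
      sub_zero]
  have hρz0 : Φ.ρ z ≠ 0 := by rw [hρz]; exact one_ne_zero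
  have hzne : (z : F) ≠ 0 := Φ.coe_ne_zero hρz0
  have hfac : (z : F) = -(algebraMap K F c⁻¹ * ((y : F) - algebraMap K F c)) := by
    rw [hzcoe, mul_sub, ← map_mul, inv_mul_cancel₀ hc0, map_one]; ring
  have hyc : (y : F) - algebraMap K F c ≠ 0 := by
    intro h0
    rw [hfac, h0, mul_zero, neg_zero] at hzne
    exact hzne rfl
  have hpos : 0 < P.ord (z : F) := by
    rw [hfac, ord_neg, ord_const_mul P (inv_ne_zero hc0)]
    exact hc.resolve_left hyc
  have hnn : ∀ P', Φ.r P' = Q → 0 ≤ P'.ord (z : F) := by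
    intro P' hP'
    rw [hzcoe]
    refine ord_sub_nonneg P' (by rw [P'.ord_one]) ?_
    rw [ord_const_mul P' (inv_ne_zero hc0)]
    exact hreg P' hP'
  have := Φ.ord_ρ_pos hρz0 hnn hP hpos
  rw [hρz, Q.ord_one] at this
  exact lt_irrefl _ this

/-- **Value lemma.** If `y ∈ O` has no pole over `Q = r P` and `y(P) = c` (so `c ∈ A` by
`val_mem`), then `(ρ y)(Q) = res c`. -/
theorem hasVal_ρ {y : Φ.O} {Q : Place k Fk} {P : Place K F} (hP : Φ.r P = Q)
    (hreg : ∀ P', Φ.r P' = Q → 0 ≤ P'.ord (y : F)) {c : Φ.A} (hc : HasVal P (y : F) (c : K)) :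
    HasVal Q (Φ.ρ y) (Φ.res c) := by
  set z : Φ.O := y - Φ.const c with hz
  have hzcoe : (z : F) = (y : F) - algebraMap K F (c : K) := rfl
  have hρz : Φ.ρ z = Φ.ρ y - algebraMap k Fk (Φ.res c) := by
    rw [hz, map_sub, Φ.ρ_const']
  by_cases h0 : Φ.ρ z = 0
  · left; rw [← hρz, h0]
  · right
    rw [← hρz]
    refine Φ.ord_ρ_pos h0 (fun P' hP' => ?_) hP ?_
    · rw [hzcoe]
      exact ord_sub_nonneg P' (hreg P' hP') (by rw [ord_algebraMap])
    · rw [hzcoe]
      have hne : (y : F) - algebraMap K F (c : K) ≠ 0 := by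
        rw [← hzcoe]; exact Φ.coe_ne_zero h0
      exact hc.resolve_left hne

end Red

end RedCore

end Fermat.Agent.S15.H722
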