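import Fermat.Agent.S15.H722.RedCore

/-!
# S15 / COMPAT (helper722): algebra of values at a place
-/

set_option autoImplicit false

noncomputable section

open AlgebraicCurve

namespace Fermat.Agent.S15.H722

open Fermat.Agent.Lib.RR Fermat.Agent.S18.H725

variable {K F : Type*} [Field K] [Field F] [Algebra K F]

/-- `HasVal` in terms of the residue map. -/
theorem hasVal_iff_residue {P : Place K F} {f : F} {c : K} :
    HasVal P f c ↔ ∃ h : f ∈ P.toValuationSubring,
      IsLocalRing.residue P.toValuationSubring ⟨f, h⟩ = algebraMap K P.ResidueField c := by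
  constructor
  · intro hv
    have hmem : f ∈ P.toValuationSubring := mem_of_ord_nonneg P hv.ord_nonneg
    refine ⟨hmem, ?_⟩
    have hsub : (⟨f, hmem⟩ - algebraMap K P.toValuationSubring c : P.toValuationSubring) ∈
        IsLocalRing.maximalIdeal P.toValuationSubring := by
      rw [mem_maximalIdeal_iff]
      have hv' : f - algebraMap K F c = 0 ∨ 0 < P.ord (f - algebraMap K F c) := hv
      simpa using hv'
    have := (IsLocalRing.residue_eq_zero_iff _).mpr hsub
    rw [map_sub, sub_eq_zero] at this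
    rw [this, IsScalarTower.algebraMap_apply K P.toValuationSubring P.ResidueField]
    rfl
  · rintro ⟨hmem, hres⟩
    have hsub : IsLocalRing.residue P.toValuationSubring
        (⟨f, hmem⟩ - algebraMap K P.toValuationSubring c) = 0 := by
      rw [map_sub, hres, IsScalarTower.algebraMap_apply K P.toValuationSubring P.ResidueField]
      exact sub_self _
    rw [IsLocalRing.residue_eq_zero_iff, mem_maximalIdeal_iff] at hsub
    have hsub' : f - algebraMap K F c = 0 ∨ 0 < P.ord (f - algebraMap K F c) := by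
      simpa using hsub
    exact hsub'

theorem hasVal_const (P : Place K F) (c : K) : HasVal P (algebraMap K F c) c :=
  Or.inl (sub_self _)

theorem HasVal.mul {P : Place K F} {f g : F} {a b : K} (hf : HasVal P f a) (hg : HasVal P g b) :
    HasVal P (f * g) (a * b) := by
  rw [hasVal_iff_residue] at hf hg ⊢
  obtain ⟨hfm, hfr⟩ := hf
  obtain ⟨hgm, hgr⟩ := hg
  refine ⟨mul_mem hfm hgm, ?_⟩
  have : (⟨f * g, mul_mem hfm hgm⟩ : P.toValuationSubring) = ⟨f, hfm⟩ * ⟨g, hgm⟩ := rfl
  rw [this, map_mul, hfr, hgr, map_mul]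

theorem HasVal.add {P : Place K F} {f g : F} {a b : K} (hf : HasVal P f a) (hg : HasVal P g b) :
    HasVal P (f + g) (a + b) := by
  rw [hasVal_iff_residue] at hf hg ⊢
  obtain ⟨hfm, hfr⟩ := hf
  obtain ⟨hgm, hgr⟩ := hg
  refine ⟨add_mem hfm hgm, ?_⟩
  have : (⟨f + g, add_mem hfm hgm⟩ : P.toValuationSubring) = ⟨f, hfm⟩ + ⟨g, hgm⟩ := rfl
  rw [this, map_add, hfr, hgr, map_add]

theorem HasVal.pow {P : Place K F} {f : F} {a : K} (hf : HasVal P f a) (n : ℕ) :
    HasVal P (f ^ n) (a ^ n) := by
  induction n with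
  | zero =>
    rw [pow_zero, pow_zero]
    have := hasVal_const P (1 : K)
    rwa [map_one] at this
  | succ n ih =>
    rw [pow_succ, pow_succ]
    exact ih.mul hf

theorem HasVal.inv {P : Place K F} {f : F} {a : K} (hf : HasVal P f a) (ha : a ≠ 0) :
    HasVal P f⁻¹ a⁻¹ := by
  have hord : P.ord f = 0 := ord_eq_zero_of_sub_pos P ha hf
  have hf0 : f ≠ 0 := by
    rintro rfl
    rcases hf with h | h
    · rw [zero_sub, neg_eq_zero] at h
      exact ((map_ne_zero (algebraMap K F)).mpr ha) h
    · rw [zero_sub, ord_neg, ord_algebraMap] at h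
      exact lt_irrefl _ h
  have hinvm : f⁻¹ ∈ P.toValuationSubring := mem_of_ord_nonneg P (by rw [P.ord_inv, hord]; simp)
  have hfg := hf
  rw [hasVal_iff_residue] at hf ⊢
  obtain ⟨hfm, hfr⟩ := hf
  refine ⟨hinvm, ?_⟩
  have hmul : (⟨f, hfm⟩ : P.toValuationSubring) * ⟨f⁻¹, hinvm⟩ = 1 :=
    Subtype.ext (mul_inv_cancel₀ hf0)
  have h1 := congrArg (IsLocalRing.residue P.toValuationSubring) hmul
  rw [map_mul, map_one, hfr] at h1
  rw [map_inv₀]
  exact eq_inv_of_mul_eq_one_right h1

theorem HasVal.div {P : Place K F} {f g : F} {a b : K} (hf : HasVal P f a) (hg : HasVal P g b)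
    (hb : b ≠ 0) : HasVal P (f / g) (a / b) := by
  rw [div_eq_mul_inv, div_eq_mul_inv]
  exact hf.mul (hg.inv hb)

theorem HasVal.ord_eq_zero {P : Place K F} {f : F} {a : K} (hf : HasVal P f a) (ha : a ≠ 0) :
    P.ord f = 0 :=
  ord_eq_zero_of_sub_pos P ha hf

/-- a function vanishing at `P` has value `0` after multiplication by a regular function -/
theorem hasVal_zero_mul {P : Place K F} {f g : F} (hf : HasVal P f 0) (hg : 0 ≤ P.ord g) :
    HasVal P (f * g) 0 := by
  rcases eq_or_ne f 0 with rfl | hf0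
  · rw [zero_mul]; exact Or.inl (by simp)
  rcases eq_or_ne g 0 with rfl | hg0
  · rw [mul_zero]; exact Or.inl (by simp)
  right
  rw [map_zero, sub_zero, P.ord_mul hf0 hg0]
  have := hf.ord_pos_of_zero hf0
  omega

end Fermat.Agent.S15.H722
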