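import Fermat.Agent.S15.H722.ModRed
import Fermat.Agent.S15.H722.HasValAlg

/-!
# S15 / COMPAT (helper722): the cusp criterion for `X₀(p)`

`F = L(X₀(N))` (`laurentBaseChange L (modularFunctionFieldFull N)`), `A ⊆ L` a valuation ring,
`π : A → k`, `r` a place reduction (`IsPlaceReductionAlong A π N r`).

* `jF`, `jdF d` : the functions `j`, `j_d = j(q^d)` in `F`; `jFk`, `jdFk` in `F_k`;
* `r_eq_cusp` : **COMPAT-FF**.  Let `d ∣ N`, `d > 0` (in the application `d = N = p`).  Assume
  - (`hzero`, `hpole`) `r` maps zeros of `j` to zeros of `j̄` and poles of `j` to poles of `j̄`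
    (degree preservation for `j`),
  - (`hcusps`) the poles of `j` are the places `Cinf`, `C0`,
  - (`hjd`) `j_d` has poles only at poles of `j`,
  - (`hinf`, `h0`) `j_d / j ^ d` takes the value `1` at `Cinf` and `0` at `C0`.
  Let `W` be a place with `j(W) = a ∉ A`, `j_d(W) = b`.  Then `b / a ^ d ∈ A`;
  if `b / a ^ d` is a unit of `A` then `r W = r Cinf`; if it is a non-unit then `r W = r C0`.
* `reductionAlong_eq_zero` : consequently the class of `W - C` dies under `reductionAlong`.
-/

set_option autoImplicit false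
set_option synthInstance.maxHeartbeats 400000

noncomputable section

open AlgebraicCurve ModularCurve HahnSeries

namespace Fermat.Agent.S15.H722

open Fermat.Agent.Lib.RR Fermat.Agent.S18.H725

section Series

/-- the `q`-series of `1 / j` over any commutative ring -/
def jInvSer (R : Type*) [CommRing R] : LaurentSeries R :=
  HahnSeries.single (1 : ℤ) 1 *
    HahnSeries.ofPowerSeries ℤ R ((jNum.map (Int.castRingHom R)).invOfUnit 1)

theorem jqModC_mul_jInvSer (R : Type*) [CommRing R] : jqModC R * jInvSer R = 1 := by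
  have hc : PowerSeries.constantCoeff (jNum.map (Int.castRingHom R)) = ((1 : Rˣ) : R) := by
    rw [← PowerSeries.coeff_zero_eq_constantCoeff, PowerSeries.coeff_map,
      PowerSeries.coeff_zero_eq_constantCoeff, constantCoeff_jNum]
    simp
  have h1 := PowerSeries.mul_invOfUnit (jNum.map (Int.castRingHom R)) 1 hc
  have h2 : HahnSeries.ofPowerSeries ℤ R (jNum.map (Int.castRingHom R)) *
      HahnSeries.ofPowerSeries ℤ R ((jNum.map (Int.castRingHom R)).invOfUnit 1) = 1 := by
    rw [← map_mul, h1, map_one]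
  have h3 : HahnSeries.single (-1 : ℤ) (1 : R) * HahnSeries.single (1 : ℤ) 1 = 1 := by
    rw [HahnSeries.single_mul_single]
    simp
  calc jqModC R * jInvSer R
      = (HahnSeries.single (-1 : ℤ) (1 : R) * HahnSeries.single (1 : ℤ) 1) *
          (HahnSeries.ofPowerSeries ℤ R (jNum.map (Int.castRingHom R)) *
            HahnSeries.ofPowerSeries ℤ R ((jNum.map (Int.castRingHom R)).invOfUnit 1)) := by
        rw [jqModC, jInvSer]; ring
    _ = 1 := by rw [h2, h3, mul_one]

theorem coeffMap_jInvSer_mul {R S : Type*} [CommRing R] [CommRing S] (f : R →+* S) :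
    jqModC S * coeffMap f (jInvSer R) = 1 := by
  rw [← coeffMap_jqModC f, ← map_mul, jqModC_mul_jInvSer, map_one]

theorem jqModC_ne_zero' (S : Type*) [Field S] : jqModC S ≠ 0 := by
  intro h
  have := jqModC_mul_jInvSer S
  rw [h, zero_mul] at this
  exact zero_ne_one this

theorem coeffMap_jInvSer {R S : Type*} [CommRing R] [Field S] (f : R →+* S) :
    coeffMap f (jInvSer R) = (jqModC S)⁻¹ :=
  eq_inv_of_mul_eq_one_right (coeffMap_jInvSer_mul f)

end Series

section Functions

variable (L : Type*) [Field L] [Algebra ℚ L] (N : ℕ)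

theorem jd_mem_F {d : ℕ} [NeZero d] (hd : d ∣ N) :
    qExpand L d (jqModC L) ∈ laurentBaseChange L (modularFunctionFieldFull N) := by
  have h1 : qExpand ℚ d jq ∈ modularFunctionFieldFull N := jqd_mem_full N hd
  have h2 := coeffEmb_mem_laurentBaseChange L h1
  have h3 : coeffEmb L (qExpand ℚ d jq) = qExpand L d (jqModC L) := by
    rw [coeffEmb, ModularCurve.coeffMap_qExpand, ← jqModC_rat, coeffMap_jqModC]
  rwa [h3] at h2

theorem j_mem_F : jqModC L ∈ laurentBaseChange L (modularFunctionFieldFull N) := by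
  have := jd_mem_F L N (d := 1) (one_dvd N)
  rwa [qExpand_one_apply] at this

/-- `j` as an element of `F` -/
def jF : laurentBaseChange L (modularFunctionFieldFull N) := ⟨jqModC L, j_mem_F L N⟩

/-- `j_d` as an element of `F` -/
def jdF {d : ℕ} [NeZero d] (hd : d ∣ N) : laurentBaseChange L (modularFunctionFieldFull N) :=
  ⟨qExpand L d (jqModC L), jd_mem_F L N hd⟩

theorem jF_ne_zero : jF L N ≠ 0 := fun h =>
  jqModC_ne_zero' L (congrArg Subtype.val h)

end Functions

section FunctionsK

variable (k : Type*) [Field k] (N : ℕ)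

/-- `j` as an element of `F_k` -/
def jFk : modularFunctionFieldFullC k N := ⟨jqModC k, jqModC_mem_full k N⟩

/-- `j_d` as an element of `F_k` -/
def jdFk {d : ℕ} [NeZero d] (hd : d ∣ N) : modularFunctionFieldFullC k N :=
  ⟨qExpand k d (jqModC k), jqModCd_mem_full k N hd⟩

theorem jFk_ne_zero : jFk k N ≠ 0 := fun h =>
  jqModC_ne_zero' k (congrArg Subtype.val h)

end FunctionsK

section Integral

variable {L : Type*} [Field L] [Algebra ℚ L] (A : ValuationSubring L)
variable {k : Type*} [Field k] (π : A →+* k) (N : ℕ)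

local notation "FL" => laurentBaseChange L (modularFunctionFieldFull N)
local notation "Fk" => modularFunctionFieldFullC k N

/-- `j` as an integral function -/
def jO : intO A π FL Fk :=
  ofSer A π FL Fk (jqModC A) (by rw [coeffMap_jqModC]; exact j_mem_F L N)
    (by rw [coeffMap_jqModC]; exact jqModC_mem_full k N)

theorem coe_jO : ((jO A π N : intO A π FL Fk) : FL) = jF L N :=
  Subtype.ext (coeffMap_jqModC A.subtype)

theorem redO_jO : redO A π FL Fk (jO A π N) = jFk k N := by
  rw [jO, redO_ofSer]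
  exact Subtype.ext (coeffMap_jqModC π)

/-- `j_d` as an integral function -/
def jdO {d : ℕ} [NeZero d] (hd : d ∣ N) : intO A π FL Fk :=
  ofSer A π FL Fk (qExpand A d (jqModC A))
    (by rw [ModularCurve.coeffMap_qExpand, coeffMap_jqModC]; exact jd_mem_F L N hd)
    (by rw [ModularCurve.coeffMap_qExpand, coeffMap_jqModC]; exact jqModCd_mem_full k N hd)

theorem coe_jdO {d : ℕ} [NeZero d] (hd : d ∣ N) :
    ((jdO A π N hd : intO A π FL Fk) : FL) = jdF L N hd :=
  Subtype.ext (by
    show coeffMap A.subtype (qExpand A d (jqModC A)) = qExpand L d (jqModC L)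
    rw [ModularCurve.coeffMap_qExpand, coeffMap_jqModC])

/-- `1 / j` as an integral function -/
def xO : intO A π FL Fk :=
  ofSer A π FL Fk (jInvSer A)
    (by rw [coeffMap_jInvSer]; exact inv_mem (j_mem_F L N))
    (by rw [coeffMap_jInvSer]; exact inv_mem (jqModC_mem_full k N))

theorem coe_xO : ((xO A π N : intO A π FL Fk) : FL) = (jF L N)⁻¹ :=
  Subtype.ext (by
    show coeffMap A.subtype (jInvSer A) = ((jF L N)⁻¹ : FL)
    rw [coeffMap_jInvSer]; rfl)

theorem redO_xO : redO A π FL Fk (xO A π N) = (jFk k N)⁻¹ := by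
  rw [xO, redO_ofSer]
  exact Subtype.ext (by
    show coeffMap π (jInvSer A) = ((jFk k N)⁻¹ : Fk)
    rw [coeffMap_jInvSer]; rfl)

end Integral

section Main

variable {L : Type*} [Field L] [Algebra ℚ L] (A : ValuationSubring L)
variable {k : Type*} [Field k] (π : A →+* k) (N : ℕ)

local notation "FL" => laurentBaseChange L (modularFunctionFieldFull N)
local notation "Fk" => modularFunctionFieldFullC k N

/-- the coordinate at infinity `x = 1 / j` of the modular place reduction -/
def modInfCoord (hπ : ∀ a : A, ¬ IsUnit a → π a = 0)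
    (r : Place L FL → Place k Fk) (hr : IsPlaceReductionAlong A π N r)
    (hzero : ∀ P : Place L FL, 0 < P.ord (jF L N) → 0 < (r P).ord (jFk k N))
    (hpole : ∀ P : Place L FL, P.ord (jF L N) < 0 → (r P).ord (jFk k N) < 0) :
    InfCoord (modRedCore A π N hπ r hr) where
  x := xO A π N
  xi := jO A π N
  mul_eq_one := by
    rw [coe_xO, coe_jO]
    exact inv_mul_cancel₀ (jF_ne_zero L N)
  zero_to_zero := by
    intro P hP
    rw [coe_xO, P.ord_inv] at hP
    show 0 < (r P).ord (redO A π FL Fk (xO A π N))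
    rw [redO_xO, (r P).ord_inv]
    have := hpole P (by omega)
    omega
  pole_to_pole := by
    intro P hP
    rw [coe_xO, P.ord_inv] at hP
    show (r P).ord (redO A π FL Fk (xO A π N)) < 0
    rw [redO_xO, (r P).ord_inv]
    have := hzero P (by omega)
    omega

/-- **COMPAT-FF: the cusp criterion.** -/
theorem r_eq_cusp [HasPrincipalDivisors L FL] (hπ : ∀ a : A, ¬ IsUnit a → π a = 0)
    (r : Place L FL → Place k Fk) (hr : IsPlaceReductionAlong A π N r)
    (hzero : ∀ P : Place L FL, 0 < P.ord (jF L N) → 0 < (r P).ord (jFk k N))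
    (hpole : ∀ P : Place L FL, P.ord (jF L N) < 0 → (r P).ord (jFk k N) < 0)
    {d : ℕ} [NeZero d] (hd : d ∣ N)
    {Cinf C0 : Place L FL}
    (hcusps : ∀ P : Place L FL, P.ord (jF L N) < 0 → P = Cinf ∨ P = C0)
    (hjd : ∀ P : Place L FL, P.ord (jdF L N hd) < 0 → P.ord (jF L N) < 0)
    (hinf : HasVal Cinf (jdF L N hd / jF L N ^ d) 1)
    (h0 : HasVal C0 (jdF L N hd / jF L N ^ d) 0)
    {W : Place L FL} {a b : L} (ha : HasVal W (jF L N) a) (hb : HasVal W (jdF L N hd) b)
    (haA : a ∉ A) :
    ∃ h : b / a ^ d ∈ A, (IsUnit (⟨b / a ^ d, h⟩ : A) → r W = r Cinf) ∧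
      (¬ IsUnit (⟨b / a ^ d, h⟩ : A) → r W = r C0) := by
  classical
  set Φ := modRedCore A π N hπ r hr with hΦ
  set X := modInfCoord A π N hπ r hr hzero hpole with hX
  have ha0 : a ≠ 0 := by
    rintro rfl
    exact haA (zero_mem _)
  have hainv : a⁻¹ ∈ A := (A.mem_or_inv_mem a).resolve_left haA
  have hnu : ¬ IsUnit (⟨a⁻¹, hainv⟩ : A) := by
    intro hu
    apply haA
    obtain ⟨u, hu⟩ := hu
    have h1 : ((u⁻¹ : Aˣ) : A) * ⟨a⁻¹, hainv⟩ = 1 := by rw [← hu]; exact Units.inv_mul u
    have h2 : (((u⁻¹ : Aˣ) : A) : L) * a⁻¹ = 1 := by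
      have := congrArg Subtype.val h1
      simpa using this
    have h3 : (((u⁻¹ : Aˣ) : A) : L) = a := by
      field_simp at h2
      exact h2
    rw [← h3]
    exact Subtype.mem _
  -- the function `u = j_d * x ^ d`
  set u : intO A π FL Fk := jdO A π N hd * xO A π N ^ d with hu
  have hucoe : ((u : intO A π FL Fk) : FL) = jdF L N hd / jF L N ^ d := by
    rw [hu]
    push_cast
    rw [coe_jdO, coe_xO, inv_pow, div_eq_mul_inv]
  have hxcoe : ((X.x : Φ.O) : FL) = (jF L N)⁻¹ := coe_xO A π N
  have hcusps' : ∀ P : Place L FL, 0 < P.ord ((X.x : Φ.O) : FL) → P = Cinf ∨ P = C0 := by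
    intro P hP
    rw [hxcoe, P.ord_inv] at hP
    exact hcusps P (by omega)
  have hupoles : ∀ P : Place L FL, P.ord ((u : intO A π FL Fk) : FL) < 0 →
      P.ord ((X.x : Φ.O) : FL) < 0 := by
    intro P hP
    rw [hxcoe, P.ord_inv]
    by_contra hcon
    push Not at hcon
    have hj : P.ord (jF L N) ≤ 0 := by omega
    rcases lt_or_eq_of_le hj with hlt | heq
    · -- `P` is a cusp, where `u` is regular
      rcases hcusps P hlt with rfl | rfl
      · have := hinf.ord_nonneg
        rw [← hucoe] at this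
        omega
      · have := h0.ord_nonneg
        rw [← hucoe] at this
        omega
    · -- `j` is a unit at `P`, so `j_d` is regular at `P`
      have hjd' : 0 ≤ P.ord (jdF L N hd) := by
        by_contra hneg
        push Not at hneg
        have := hjd P hneg
        omega
      rw [hucoe] at hP
      have hjne : jF L N ^ d ≠ 0 := pow_ne_zero _ (jF_ne_zero L N)
      rcases eq_or_ne (jdF L N hd) 0 with h0' | hne
      · rw [h0', zero_div, P.ord_zero] at hP
        exact lt_irrefl _ hP
      · rw [div_eq_mul_inv, P.ord_mul hne (inv_ne_zero hjne), P.ord_inv, ord_pow, heq] at hP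
        omega
  have hW : HasVal W ((X.x : Φ.O) : FL) ((⟨a⁻¹, hainv⟩ : A) : L) := by
    rw [hxcoe]
    exact ha.inv ha0
  have hbu : HasVal W ((u : intO A π FL Fk) : FL) (b / a ^ d) := by
    rw [hucoe]
    exact hb.div (ha.pow d) (pow_ne_zero _ ha0)
  have hu1 : HasVal Cinf ((u : intO A π FL Fk) : FL) 1 := by rw [hucoe]; exact hinf
  have hu0 : HasVal C0 ((u : intO A π FL Fk) : FL) 0 := by rw [hucoe]; exact h0
  obtain ⟨hbA, h1, h2⟩ := X.r_eq_of_two_cusps (C₁ := Cinf) (C₀ := C0) hcusps' (u := u) hupoles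
    hu1 hu0 (c := ⟨a⁻¹, hainv⟩) hnu hW hbu
  refine ⟨hbA, fun hunit => ?_, fun hnunit => ?_⟩
  · refine h1 ?_
    show π ⟨b / a ^ d, hbA⟩ ≠ 0
    exact (hunit.map π).ne_zero
  · refine h2 ?_
    show π ⟨b / a ^ d, hbA⟩ = 0
    exact hπ _ hnunit

end Main

end Fermat.Agent.S15.H722
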