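import Fermat.Agent.S15.H722.RedCore

/-!
# S15 / COMPAT (helper722): the abstract cusp criterion

Setting: a place reduction `Φ : RedCore K F k Fk` and a "coordinate at infinity" `x ∈ O`
(in the application `x = 1 / j`) with integral inverse `xi` (`= j`) such that `r` maps zeros of
`x` to zeros of `ρ x` and poles of `x` to poles of `ρ x` (`InfCoord`; both follow from
"`deg x = deg ρ x`").

* `InfCoord.ord_ρx_pos` : a place `W` with `x(W) ∈ 𝔪_A` reduces to a zero of `ρ x`
  (a place with non-integral `j`-value reduces to a cusp);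
* `InfCoord.near_cusp` : such a `W` has the same reduction as some zero `C` of `x` (a cusp), and
  for every integral function `u` with poles only at poles of `x`, the values `u(W)`, `u(C)` are
  integral with the same residue;
* `InfCoord.r_eq_of_two_cusps` : if `x` has exactly two zeros `C₁, C₀` and `u` takes the values
  `1` and `0` there, then `r W = r C₁` if `u(W)` is a unit and `r W = r C₀` otherwise.
-/

set_option autoImplicit false

noncomputable section

open AlgebraicCurve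

namespace Fermat.Agent.S15.H722

open Fermat.Agent.Lib.RR Fermat.Agent.S18.H725

variable {K F k Fk : Type*} [Field K] [Field F] [Algebra K F] [Field k] [Field Fk] [Algebra k Fk]

/-- A coordinate at infinity for a place reduction. -/
structure InfCoord (Φ : RedCore K F k Fk) where
  /-- the coordinate (`1 / j`) -/
  x : Φ.O
  /-- its inverse (`j`) -/
  xi : Φ.O
  mul_eq_one : (x : F) * (xi : F) = 1
  /-- zeros of `x` reduce to zeros of `ρ x` -/
  zero_to_zero : ∀ P : Place K F, 0 < P.ord (x : F) → 0 < (Φ.r P).ord (Φ.ρ x)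
  /-- poles of `x` reduce to poles of `ρ x` -/
  pole_to_pole : ∀ P : Place K F, P.ord (x : F) < 0 → (Φ.r P).ord (Φ.ρ x) < 0

namespace InfCoord

variable {Φ : RedCore K F k Fk} (X : InfCoord Φ)

theorem x_mul_xi : X.x * X.xi = 1 := Subtype.ext X.mul_eq_one

theorem x_ne_zero : (X.x : F) ≠ 0 := left_ne_zero_of_mul_eq_one X.mul_eq_one

theorem xi_ne_zero : (X.xi : F) ≠ 0 := right_ne_zero_of_mul_eq_one X.mul_eq_one

theorem xi_eq_inv : (X.xi : F) = (X.x : F)⁻¹ := eq_inv_of_mul_eq_one_right X.mul_eq_one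

theorem ρx_mul_ρxi : Φ.ρ X.x * Φ.ρ X.xi = 1 := by
  rw [← map_mul, X.x_mul_xi, map_one]

theorem ρx_ne_zero : Φ.ρ X.x ≠ 0 := left_ne_zero_of_mul_eq_one X.ρx_mul_ρxi

theorem ord_xi (P : Place K F) : P.ord (X.xi : F) = -P.ord (X.x : F) := by
  rw [X.xi_eq_inv, P.ord_inv]

variable [HasPrincipalDivisors K F]

/-- A place at which `x` takes a non-unit value reduces to a zero of `ρ x`. -/
theorem ord_ρx_pos {W : Place K F} {c : Φ.A} (hc : ¬ IsUnit c) (hW : HasVal W (X.x : F) (c : K)) :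
    0 < (Φ.r W).ord (Φ.ρ X.x) := by
  by_cases hc0 : (c : K) = 0
  · rw [hc0] at hW
    exact X.zero_to_zero W (hW.ord_pos_of_zero X.x_ne_zero)
  -- `z = 1 - c * xi = (x - c) * xi` reduces to `1` and vanishes at `W`
  set z : Φ.O := 1 - Φ.const c * X.xi with hz
  have hzcoe : (z : F) = 1 - algebraMap K F (c : K) * (X.xi : F) := rfl
  have hρz : Φ.ρ z = 1 := by
    rw [hz, map_sub, map_one, map_mul, Φ.ρ_const', Φ.res_eq_zero c hc, map_zero, zero_mul,
      sub_zero]
  have hρz0 : Φ.ρ z ≠ 0 := by rw [hρz]; exact one_ne_zero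
  have hzne : (z : F) ≠ 0 := Φ.coe_ne_zero hρz0
  have hfac : (z : F) = ((X.x : F) - algebraMap K F (c : K)) * (X.xi : F) := by
    rw [hzcoe, sub_mul, X.mul_eq_one]
  have hxc : (X.x : F) - algebraMap K F (c : K) ≠ 0 := by
    intro h0
    rw [hfac, h0, zero_mul] at hzne
    exact hzne rfl
  have hordx : W.ord (X.x : F) = 0 := ord_eq_zero_of_sub_pos W hc0 hW
  have hpos : 0 < W.ord (z : F) := by
    rw [hfac, W.ord_mul hxc X.xi_ne_zero, X.ord_xi, hordx, neg_zero, add_zero]
    exact hW.resolve_left hxc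
  obtain ⟨P, hP, hPneg⟩ := Φ.exists_neg_of_ord_ρ_nonpos hρz0
    (by rw [hρz, (Φ.r W).ord_one]) rfl hpos
  -- `z` has a pole at `P`, hence `xi` has a pole at `P`, i.e. `x` vanishes at `P`
  have hxipole : P.ord (X.xi : F) < 0 := by
    by_contra hcon
    push Not at hcon
    have h1 : 0 ≤ P.ord (algebraMap K F (c : K) * (X.xi : F)) := by
      rw [ord_const_mul P hc0]; exact hcon
    have h2 : 0 ≤ P.ord (z : F) := by
      rw [hzcoe]
      exact ord_sub_nonneg P (by rw [P.ord_one]) h1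
    omega
  have hxzero : 0 < P.ord (X.x : F) := by
    have := X.ord_xi P
    omega
  have := X.zero_to_zero P hxzero
  rwa [hP] at this

omit [HasPrincipalDivisors K F] in
/-- A function with poles only at poles of `x` is regular over every zero of `ρ x`. -/
theorem regular_over {u : Φ.O} (hu : ∀ P : Place K F, P.ord (u : F) < 0 → P.ord (X.x : F) < 0)
    {Q : Place k Fk} (hQ : 0 < Q.ord (Φ.ρ X.x)) (P : Place K F) (hP : Φ.r P = Q) :
    0 ≤ P.ord (u : F) := by
  by_contra hcon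
  push Not at hcon
  have := X.pole_to_pole P (hu P hcon)
  rw [hP] at this
  omega

/-- **Value lemma near the cusps.** -/
theorem hasVal_near {u : Φ.O} (hu : ∀ P : Place K F, P.ord (u : F) < 0 → P.ord (X.x : F) < 0)
    {P : Place K F} (hP : 0 < (Φ.r P).ord (Φ.ρ X.x)) {b : K} (hb : HasVal P (u : F) b) :
    ∃ hbA : b ∈ Φ.A, HasVal (Φ.r P) (Φ.ρ u) (Φ.res ⟨b, hbA⟩) := by
  have hreg := X.regular_over hu hP
  have hbA : b ∈ Φ.A := Φ.val_mem rfl hreg hb
  exact ⟨hbA, Φ.hasVal_ρ (c := ⟨b, hbA⟩) rfl hreg hb⟩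

/-- **Cusp criterion, general form.** A place `W` at which `x` takes a non-unit value has the same
reduction as some zero `C` of `x`, and every integral function `u` with poles only at poles of `x`
takes at `W` and `C` integral values with the same residue. -/
theorem near_cusp {W : Place K F} {c : Φ.A} (hc : ¬ IsUnit c) (hW : HasVal W (X.x : F) (c : K)) :
    ∃ C : Place K F, 0 < C.ord (X.x : F) ∧ Φ.r C = Φ.r W ∧
      ∀ u : Φ.O, (∀ P : Place K F, P.ord (u : F) < 0 → P.ord (X.x : F) < 0) →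
        ∀ b β : K, HasVal W (u : F) b → HasVal C (u : F) β →
          ∃ (hb : b ∈ Φ.A) (hβ : β ∈ Φ.A), Φ.res ⟨b, hb⟩ = Φ.res ⟨β, hβ⟩ := by
  have hQ := X.ord_ρx_pos hc hW
  obtain ⟨C, hCr, hC⟩ := Φ.exists_pos_of_ord_ρ_pos X.ρx_ne_zero hQ
  refine ⟨C, hC, hCr, fun u hu b β hWu hCu => ?_⟩
  obtain ⟨hb, h1⟩ := X.hasVal_near hu hQ hWu
  have hQ' : 0 < (Φ.r C).ord (Φ.ρ X.x) := by rw [hCr]; exact hQ
  obtain ⟨hβ, h2⟩ := X.hasVal_near hu hQ' hCu
  rw [hCr] at h2
  exact ⟨hb, hβ, h1.unique h2⟩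

/-- **Cusp criterion for two cusps.** Suppose `x` has exactly the zeros `C₁` and `C₀`, and `u` is an
integral function with poles only at poles of `x` taking the values `1` at `C₁` and `0` at `C₀`.
Let `W` be a place at which `x` takes a non-unit value and `u` the value `b`.  Then `b` is integral,
`r W = r C₁` if `b` reduces to a nonzero element, and `r W = r C₀` if `b` reduces to `0`. -/
theorem r_eq_of_two_cusps {C₁ C₀ : Place K F}
    (hcusps : ∀ P : Place K F, 0 < P.ord (X.x : F) → P = C₁ ∨ P = C₀)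
    {u : Φ.O} (hu : ∀ P : Place K F, P.ord (u : F) < 0 → P.ord (X.x : F) < 0)
    (hu₁ : HasVal C₁ (u : F) 1) (hu₀ : HasVal C₀ (u : F) 0)
    {W : Place K F} {c : Φ.A} (hc : ¬ IsUnit c) (hW : HasVal W (X.x : F) (c : K))
    {b : K} (hb : HasVal W (u : F) b) :
    ∃ hbA : b ∈ Φ.A, (Φ.res ⟨b, hbA⟩ ≠ 0 → Φ.r W = Φ.r C₁) ∧
      (Φ.res ⟨b, hbA⟩ = 0 → Φ.r W = Φ.r C₀) := by
  obtain ⟨C, hC, hCr, hval⟩ := X.near_cusp hc hW
  have hbA : b ∈ Φ.A := by
    obtain ⟨h, -⟩ := X.hasVal_near hu (X.ord_ρx_pos hc hW) hb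
    exact h
  refine ⟨hbA, fun hne => ?_, fun h0 => ?_⟩
  · rcases hcusps C hC with rfl | rfl
    · exact hCr.symm
    · exfalso
      obtain ⟨hb', hβ, h⟩ := hval u hu b 0 hb hu₀
      apply hne
      have h0 : Φ.res ⟨0, hβ⟩ = 0 := map_zero Φ.res
      rw [← h0, ← h]
  · rcases hcusps C hC with rfl | rfl
    · exfalso
      obtain ⟨hb', hβ, h⟩ := hval u hu b 1 hb hu₁
      have h1 : Φ.res ⟨1, hβ⟩ = 1 := map_one Φ.res
      have h2 : Φ.res ⟨b, hb'⟩ = 0 := h0
      rw [h2, h1] at h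
      exact zero_ne_one h
    · exact hCr.symm

end InfCoord

end Fermat.Agent.S15.H722
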