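import Fermat.Prelude.Def_ModularCurve_ReductionModL
import Fermat.Agent.S15.H722.CuspCrit

/-!
# S15 / COMPAT (helper722): the modular instance of `RedCore`

From a place reduction `r` in the sense of the Prelude (`IsPlaceReductionAlong A π N r`) we build
`modRedCore : RedCore L F k F_k` with `O` = integral `q`-series of `F` whose reduction lies in
`F_k`, and we exhibit `j`, `1/j`, `j_d` (`d ∣ N`) as elements of `O`.
-/

set_option autoImplicit false

noncomputable section

open AlgebraicCurve ModularCurve HahnSeries

namespace Fermat.Agent.S15.H722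

section Series

variable {L : Type*} [Field L] (A : ValuationSubring L) {k : Type*} [Field k] (π : A →+* k)
variable (F : IntermediateField L (LaurentSeries L)) (Fk : IntermediateField k (LaurentSeries k))

theorem coeffMap_subtype_inj : Function.Injective (coeffMap A.subtype) := by
  intro x y h
  ext n
  have := congrArg (fun z : LaurentSeries L => z.coeff n) h
  simp only [coeffMap_coeff] at this
  exact this

/-- `f ∈ F` is an integral `q`-series whose reduction lies in `F_k`. -/
def IsInt (f : F) : Prop :=
  ∃ y : LaurentSeries A, coeffMap A.subtype y = (f : LaurentSeries L) ∧ coeffMap π y ∈ Fk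

/-- the ring of integral `q`-series of `F` with reduction in `F_k` -/
def intO : Subring F where
  carrier := {f | IsInt A π F Fk f}
  mul_mem' := by
    rintro f g ⟨y, hy, hyk⟩ ⟨z, hz, hzk⟩
    refine ⟨y * z, ?_, ?_⟩
    · rw [map_mul, hy, hz]; rfl
    · rw [map_mul]; exact mul_mem hyk hzk
  one_mem' := ⟨1, by rw [map_one]; rfl, by rw [map_one]; exact one_mem _⟩
  add_mem' := by
    rintro f g ⟨y, hy, hyk⟩ ⟨z, hz, hzk⟩
    refine ⟨y + z, ?_, ?_⟩
    · rw [map_add, hy, hz]; rfl
    · rw [map_add]; exact add_mem hyk hzk
  zero_mem' := ⟨0, by rw [map_zero]; rfl, by rw [map_zero]; exact zero_mem _⟩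
  neg_mem' := by
    rintro f ⟨y, hy, hyk⟩
    refine ⟨-y, ?_, ?_⟩
    · rw [map_neg, hy]; rfl
    · rw [map_neg]; exact neg_mem hyk

/-- the integral series representing an element of `intO` -/
def ser (f : intO A π F Fk) : LaurentSeries A := (f.2 : IsInt A π F Fk f).choose

theorem coeffMap_ser (f : intO A π F Fk) :
    coeffMap A.subtype (ser A π F Fk f) = ((f : F) : LaurentSeries L) :=
  (f.2 : IsInt A π F Fk f).choose_spec.1

theorem coeffMap_ser_mem (f : intO A π F Fk) : coeffMap π (ser A π F Fk f) ∈ Fk :=
  (f.2 : IsInt A π F Fk f).choose_spec.2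

theorem ser_eq (f : intO A π F Fk) {y : LaurentSeries A}
    (hy : coeffMap A.subtype y = ((f : F) : LaurentSeries L)) : ser A π F Fk f = y :=
  coeffMap_subtype_inj A ((coeffMap_ser A π F Fk f).trans hy.symm)

/-- the reduction of integral series -/
def redO : intO A π F Fk →+* Fk where
  toFun f := ⟨coeffMap π (ser A π F Fk f), coeffMap_ser_mem A π F Fk f⟩
  map_one' := by
    apply Subtype.ext
    show coeffMap π (ser A π F Fk 1) = 1
    rw [ser_eq A π F Fk 1 (y := 1) (by rw [map_one]; rfl), map_one]
  map_mul' f g := by
    apply Subtype.ext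
    show coeffMap π (ser A π F Fk (f * g))
      = coeffMap π (ser A π F Fk f) * coeffMap π (ser A π F Fk g)
    rw [ser_eq A π F Fk (f * g) (y := ser A π F Fk f * ser A π F Fk g)
      (by rw [map_mul, coeffMap_ser, coeffMap_ser]; rfl), map_mul]
  map_zero' := by
    apply Subtype.ext
    show coeffMap π (ser A π F Fk 0) = 0
    rw [ser_eq A π F Fk 0 (y := 0) (by rw [map_zero]; rfl), map_zero]
  map_add' f g := by
    apply Subtype.ext
    show coeffMap π (ser A π F Fk (f + g))
      = coeffMap π (ser A π F Fk f) + coeffMap π (ser A π F Fk g)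
    rw [ser_eq A π F Fk (f + g) (y := ser A π F Fk f + ser A π F Fk g)
      (by rw [map_add, coeffMap_ser, coeffMap_ser]; rfl), map_add]

theorem coe_redO (f : intO A π F Fk) {y : LaurentSeries A}
    (hy : coeffMap A.subtype y = ((f : F) : LaurentSeries L)) :
    ((redO A π F Fk f : Fk) : LaurentSeries k) = coeffMap π y := by
  show coeffMap π (ser A π F Fk f) = coeffMap π y
  rw [ser_eq A π F Fk f hy]

theorem const_isInt (a : A) : IsInt A π F Fk (algebraMap L F (a : L)) := by
  refine ⟨HahnSeries.single 0 a, ?_, ?_⟩
  · rw [coeffMap_single]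
    show HahnSeries.single 0 (a : L) = algebraMap L (LaurentSeries L) (a : L)
    rw [algebraMap_laurentSeries_eq_single]
  · rw [coeffMap_single, ← algebraMap_laurentSeries_eq_single]
    exact Fk.algebraMap_mem _

theorem redO_const (a : A) :
    redO A π F Fk ⟨algebraMap L F (a : L), const_isInt A π F Fk a⟩ = algebraMap k Fk (π a) := by
  apply Subtype.ext
  rw [coe_redO A π F Fk ⟨_, const_isInt A π F Fk a⟩ (y := HahnSeries.single 0 a)]
  · rw [coeffMap_single, ← algebraMap_laurentSeries_eq_single]
    rfl
  · rw [coeffMap_single]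
    show HahnSeries.single 0 (a : L) = algebraMap L (LaurentSeries L) (a : L)
    rw [algebraMap_laurentSeries_eq_single]

/-- an element of `intO` from an integral series -/
def ofSer (y : LaurentSeries A) (hy : coeffMap A.subtype y ∈ F) (hyk : coeffMap π y ∈ Fk) :
    intO A π F Fk :=
  ⟨⟨coeffMap A.subtype y, hy⟩, y, rfl, hyk⟩

@[simp] theorem coe_ofSer (y : LaurentSeries A) (hy : coeffMap A.subtype y ∈ F)
    (hyk : coeffMap π y ∈ Fk) :
    ((ofSer A π F Fk y hy hyk : intO A π F Fk) : F) = ⟨coeffMap A.subtype y, hy⟩ := rfl

theorem redO_ofSer (y : LaurentSeries A) (hy : coeffMap A.subtype y ∈ F)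
    (hyk : coeffMap π y ∈ Fk) :
    redO A π F Fk (ofSer A π F Fk y hy hyk) = ⟨coeffMap π y, hyk⟩ :=
  Subtype.ext (coe_redO A π F Fk _ rfl)

end Series

section Instance

variable {L : Type*} [Field L] [Algebra ℚ L] (A : ValuationSubring L)
variable {k : Type*} [Field k] (π : A →+* k) (N : ℕ)

/-- **The modular instance of `RedCore`.** -/
def modRedCore (hπ : ∀ a : A, ¬ IsUnit a → π a = 0)
    (r : Place L (laurentBaseChange L (modularFunctionFieldFull N)) →
      Place k (modularFunctionFieldFullC k N))
    (hr : IsPlaceReductionAlong A π N r) :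
    RedCore L (laurentBaseChange L (modularFunctionFieldFull N)) k
      (modularFunctionFieldFullC k N) where
  A := A
  res := π
  res_eq_zero := hπ
  O := intO A π (laurentBaseChange L (modularFunctionFieldFull N)) (modularFunctionFieldFullC k N)
  ρ := redO A π (laurentBaseChange L (modularFunctionFieldFull N)) (modularFunctionFieldFullC k N)
  const_mem := const_isInt A π _ _
  ρ_const := redO_const A π _ _
  r := r
  red := by
    intro y hy D hD Q
    have h1 := coeffMap_ser A π (laurentBaseChange L (modularFunctionFieldFull N))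
      (modularFunctionFieldFullC k N) y
    have hmem : coeffMap A.subtype (ser A π _ _ y) ∈
        laurentBaseChange L (modularFunctionFieldFull N) := by
      rw [h1]; exact Subtype.mem _
    have hyeq : (⟨coeffMap A.subtype (ser A π _ _ y), hmem⟩ :
        laurentBaseChange L (modularFunctionFieldFull N)) = (y : laurentBaseChange L
          (modularFunctionFieldFull N)) := Subtype.ext h1
    have hne : coeffMap π (ser A π (laurentBaseChange L (modularFunctionFieldFull N))
        (modularFunctionFieldFullC k N) y) ≠ 0 := by
      intro h0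
      apply hy
      apply Subtype.ext
      exact h0
    have := hr.2 (ser A π _ _ y) hmem (coeffMap_ser_mem A π _ _ y) hne D
      (fun P => by rw [hD P, hyeq]) Q
    exact this

end Instance

end Fermat.Agent.S15.H722
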